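import Mathlib
import Fermat.Agent.LT.T6.Spec
import Fermat.Agent.LT.T6.SpecArch

/-!
# Row LT, tower T6, leaf T6.20a (`AbelExistC626`), SPARE route of helper623: THE FAMILY

OFF-MAIN.  Vocabulary: `LT/T6/Spec.lean` v3 (sha256 8c5f2ae7), `LT/T6/SpecArch.lean` (003240b2),
byte-identical copies.  No hypothesis, no hole.

For `g ∈ GL₂(ℝ)` put `d = |det g|`, `A = holPart g`, `B = ((g₀₀ - g₁₁) + i (g₁₀ + g₀₁)) / 2`
(`|A|² - |B|² = det g`), `s = |B|² / d`, `x_V = √(1 + s + V²) ≥ 1` and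
`y(g, V) = σ · !![x_V + 1 + V, B/√d; conj B/√d, x_V + 1 - V]`, `σ = d^{1/4} / √(2 (x_V + 1))`.
Then `y(g, V)` is hermitian positive, `det y = √d`, `rhoC y = x_V`, and multiplying `B` by a phase
conjugates `y` by `diag(e, 1) ∈ U(2)`.  All entries are smooth functions of the entries of `g` and
of `V` (square roots only at positive arguments).
-/

set_option autoImplicit false

open scoped Matrix ContDiff
open MeasureTheory

noncomputable section

namespace Fermat.Agent.LT.T6.H623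

open Fermat.Agent.LT.T6

/-! ## 1. Scalars attached to a real `2 × 2` matrix -/

/-- `|det M|`. -/
def dM (M : Matrix (Fin 2) (Fin 2) ℝ) : ℝ := |M.det|

/-- The antiholomorphic part `B` of `M`. -/
def bM (M : Matrix (Fin 2) (Fin 2) ℝ) : ℂ := ⟨(M 0 0 - M 1 1) / 2, (M 1 0 + M 0 1) / 2⟩

/-- The holomorphic part `A` of `M`. -/
def aM (M : Matrix (Fin 2) (Fin 2) ℝ) : ℂ := ⟨(M 0 0 + M 1 1) / 2, (M 1 0 - M 0 1) / 2⟩

theorem normSq_aM_sub (M : Matrix (Fin 2) (Fin 2) ℝ) :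
    Complex.normSq (aM M) - Complex.normSq (bM M) = M.det := by
  simp only [Complex.normSq_mk, aM, bM, Matrix.det_fin_two]
  ring

theorem aM_eq_holPart (g : GL (Fin 2) ℝ) : aM (g : Matrix (Fin 2) (Fin 2) ℝ) = holPart g := by
  apply Complex.ext <;> simp [aM, holPart]

/-- `s = |B|² / |det M|`. -/
def sM (M : Matrix (Fin 2) (Fin 2) ℝ) : ℝ := Complex.normSq (bM M) / dM M

theorem sM_nonneg (M : Matrix (Fin 2) (Fin 2) ℝ) : 0 ≤ sM M :=
  div_nonneg (Complex.normSq_nonneg _) (abs_nonneg _)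

/-- `x_V = √(1 + s + V²)`. -/
def xM (M : Matrix (Fin 2) (Fin 2) ℝ) (V : ℝ) : ℝ := Real.sqrt (1 + sM M + V ^ 2)

theorem xM_sq (M : Matrix (Fin 2) (Fin 2) ℝ) (V : ℝ) : xM M V ^ 2 = 1 + sM M + V ^ 2 := by
  unfold xM
  apply Real.sq_sqrt
  have := sM_nonneg M
  nlinarith [sq_nonneg V]

theorem one_le_xM (M : Matrix (Fin 2) (Fin 2) ℝ) (V : ℝ) : 1 ≤ xM M V := by
  unfold xM
  rw [Real.one_le_sqrt]
  have := sM_nonneg M
  nlinarith [sq_nonneg V]

theorem xM_pos (M : Matrix (Fin 2) (Fin 2) ℝ) (V : ℝ) : 0 < xM M V :=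
  lt_of_lt_of_le one_pos (one_le_xM M V)

/-- `σ = |det M|^{1/4} / √(2 (x_V + 1))`. -/
def σM (M : Matrix (Fin 2) (Fin 2) ℝ) (V : ℝ) : ℝ :=
  Real.sqrt (Real.sqrt (dM M)) / Real.sqrt (2 * (xM M V + 1))

theorem σM_sq (M : Matrix (Fin 2) (Fin 2) ℝ) (V : ℝ) :
    σM M V ^ 2 * (2 * (xM M V + 1)) = Real.sqrt (dM M) := by
  have hx := xM_pos M V
  have h2 : (0 : ℝ) < 2 * (xM M V + 1) := by positivity
  unfold σM
  rw [div_pow, Real.sq_sqrt (Real.sqrt_nonneg _), Real.sq_sqrt h2.le]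
  field_simp

theorem σM_pos {M : Matrix (Fin 2) (Fin 2) ℝ} (hM : 0 < dM M) (V : ℝ) : 0 < σM M V := by
  have hx := xM_pos M V
  unfold σM
  have h1 : 0 < Real.sqrt (Real.sqrt (dM M)) := Real.sqrt_pos.2 (Real.sqrt_pos.2 hM)
  have h2 : 0 < Real.sqrt (2 * (xM M V + 1)) := Real.sqrt_pos.2 (by positivity)
  positivity

/-! ## 2. The matrices -/

/-- The hermitian positive matrix `y(M, V)`. -/
def yM (M : Matrix (Fin 2) (Fin 2) ℝ) (V : ℝ) : Matrix (Fin 2) (Fin 2) ℂ :=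
  !![((σM M V * (xM M V + 1 + V) : ℝ) : ℂ), ((σM M V / Real.sqrt (dM M) : ℝ) : ℂ) * bM M;
     ((σM M V / Real.sqrt (dM M) : ℝ) : ℂ) * (starRingEnd ℂ) (bM M),
       ((σM M V * (xM M V + 1 - V) : ℝ) : ℂ)]

theorem sq_div_sqrt_mul (σ s d : ℝ) (hd : 0 < d) :
    σ / Real.sqrt d * (σ / Real.sqrt d) * (s * d) = σ ^ 2 * s := by
  have hs : Real.sqrt d * Real.sqrt d = d := Real.mul_self_sqrt hd.le
  have hs0 : Real.sqrt d ≠ 0 := (Real.sqrt_pos.2 hd).ne'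
  have : σ / Real.sqrt d * (σ / Real.sqrt d) * (s * d)
      = σ ^ 2 * s * (d / (Real.sqrt d * Real.sqrt d)) := by
    field_simp
  rw [this, hs, div_self hd.ne', mul_one]

theorem normSq_bM_eq {M : Matrix (Fin 2) (Fin 2) ℝ} (hM : 0 < dM M) :
    Complex.normSq (bM M) = sM M * dM M := by
  unfold sM
  rw [div_mul_cancel₀ _ hM.ne']

theorem det_yM {M : Matrix (Fin 2) (Fin 2) ℝ} (hM : 0 < dM M) (V : ℝ) :
    (yM M V).det = ((Real.sqrt (dM M) : ℝ) : ℂ) := by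
  have hb : bM M * (starRingEnd ℂ) (bM M) = ((Complex.normSq (bM M) : ℝ) : ℂ) :=
    Complex.mul_conj _
  have hsM := normSq_bM_eq hM
  have key : σM M V * (xM M V + 1 + V) * (σM M V * (xM M V + 1 - V))
      - (σM M V / Real.sqrt (dM M)) * (σM M V / Real.sqrt (dM M)) * Complex.normSq (bM M)
      = Real.sqrt (dM M) := by
    rw [hsM, sq_div_sqrt_mul _ _ _ hM]
    have hx := xM_sq M V
    have hσ := σM_sq M V
    linear_combination (σM M V ^ 2) * hx + hσ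
  unfold yM
  rw [Matrix.det_fin_two_of]
  have e2 : ((σM M V / Real.sqrt (dM M) : ℝ) : ℂ) * bM M *
      (((σM M V / Real.sqrt (dM M) : ℝ) : ℂ) * (starRingEnd ℂ) (bM M))
      = (((σM M V / Real.sqrt (dM M)) * (σM M V / Real.sqrt (dM M)) * Complex.normSq (bM M) : ℝ) : ℂ) := by
    push_cast
    rw [← hb]; ring
  rw [e2, ← Complex.ofReal_mul, ← Complex.ofReal_sub, key]

theorem det_yM_ne_zero {M : Matrix (Fin 2) (Fin 2) ℝ} (hM : 0 < dM M) (V : ℝ) :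
    (yM M V).det ≠ 0 := by
  rw [det_yM hM]
  exact_mod_cast (Real.sqrt_pos.2 hM).ne'

theorem dM_pos (g : GL (Fin 2) ℝ) : 0 < dM (g : Matrix (Fin 2) (Fin 2) ℝ) := by
  unfold dM
  exact abs_pos.2 ((Matrix.isUnit_iff_isUnit_det _).1 g.isUnit).ne_zero

/-- The element `y(g, V)` of `GL₂(ℂ)`. -/
def yG (g : GL (Fin 2) ℝ) (V : ℝ) : GL (Fin 2) ℂ :=
  Matrix.GeneralLinearGroup.mkOfDetNeZero (yM (g : Matrix (Fin 2) (Fin 2) ℝ) V)
    (det_yM_ne_zero (dM_pos g) V)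

@[simp] theorem coe_yG (g : GL (Fin 2) ℝ) (V : ℝ) :
    ((yG g V : GL (Fin 2) ℂ) : Matrix (Fin 2) (Fin 2) ℂ) = yM (g : Matrix (Fin 2) (Fin 2) ℝ) V :=
  rfl

theorem norm_det_yG (g : GL (Fin 2) ℝ) (V : ℝ) :
    ‖((yG g V : GL (Fin 2) ℂ) : Matrix (Fin 2) (Fin 2) ℂ).det‖
      = Real.sqrt (dM (g : Matrix (Fin 2) (Fin 2) ℝ)) := by
  rw [coe_yG, det_yM (dM_pos g), Complex.norm_real, Real.norm_eq_abs,
    abs_of_nonneg (Real.sqrt_nonneg _)]

/-- The Frobenius norm of `y(M, V)`. -/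
theorem frob_yM {M : Matrix (Fin 2) (Fin 2) ℝ} (hM : 0 < dM M) (V : ℝ) :
    (((yM M V).conjTranspose * yM M V).trace).re = 2 * xM M V * Real.sqrt (dM M) := by
  have hsM := normSq_bM_eq hM
  have hx := xM_sq M V
  have hσ := σM_sq M V
  have hn : (bM M).re * (bM M).re + (bM M).im * (bM M).im = Complex.normSq (bM M) := by
    rw [Complex.normSq_apply]
  have e1 := sq_div_sqrt_mul (σM M V) (sM M) (dM M) hM
  simp only [yM, Matrix.trace_fin_two, Matrix.mul_apply, Fin.sum_univ_two,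
    Matrix.conjTranspose_apply, Matrix.of_apply, Matrix.cons_val', Matrix.cons_val_zero,
    Matrix.cons_val_one, Matrix.cons_val_fin_one, Complex.add_re, Complex.mul_re,
    Complex.star_def, Complex.conj_re, Complex.conj_im, Complex.ofReal_re, Complex.ofReal_im,
    Complex.conj_ofReal, Complex.mul_im, map_mul]
  linear_combination (2 * (σM M V / Real.sqrt (dM M) * (σM M V / Real.sqrt (dM M)))) * hn
    + (2 * (σM M V / Real.sqrt (dM M) * (σM M V / Real.sqrt (dM M)))) * hsM + 2 * e1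
    + (-2 * σM M V ^ 2) * hx + (2 * xM M V) * hσ

theorem rhoC_yG (g : GL (Fin 2) ℝ) (V : ℝ) :
    rhoC (yG g V) = xM (g : Matrix (Fin 2) (Fin 2) ℝ) V := by
  unfold rhoC
  rw [norm_det_yG, coe_yG, frob_yM (dM_pos g)]
  have : Real.sqrt (dM (g : Matrix (Fin 2) (Fin 2) ℝ)) ≠ 0 :=
    (Real.sqrt_pos.2 (dM_pos g)).ne'
  field_simp

end Fermat.Agent.LT.T6.H623

end
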