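import Mathlib
import Fermat.Agent.LT.T6.H623.Fam

/-!
# Row LT, tower T6, leaf T6.20a, SPARE route of helper623: equivariance of the family

`SO(2)` acts on `A = holPart` and on `B` by phases; a phase on `B` conjugates `y(g, V)` by
`diag(e, 1) ∈ U(2)`.  No hypothesis, no hole.
-/

set_option autoImplicit false

open scoped Matrix ContDiff
open MeasureTheory

noncomputable section

namespace Fermat.Agent.LT.T6.H623

open Fermat.Agent.LT.T6

/-! ## 1. `SO(2)` -/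

/-- The entries of a rotation. -/
theorem inSO2_entries {k : GL (Fin 2) ℝ} (hk : InSO2 k) :
    (k : Matrix (Fin 2) (Fin 2) ℝ) 1 1 = (k : Matrix (Fin 2) (Fin 2) ℝ) 0 0 ∧
    (k : Matrix (Fin 2) (Fin 2) ℝ) 1 0 = -(k : Matrix (Fin 2) (Fin 2) ℝ) 0 1 ∧
    (k : Matrix (Fin 2) (Fin 2) ℝ) 0 0 ^ 2 + (k : Matrix (Fin 2) (Fin 2) ℝ) 0 1 ^ 2 = 1 := by
  obtain ⟨h1, h2⟩ := hk
  set K := (k : Matrix (Fin 2) (Fin 2) ℝ) with hK
  have e00 : K 0 0 * K 0 0 + K 0 1 * K 0 1 = 1 := by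
    have := congrFun (congrFun h1 0) 0
    simpa [Matrix.mul_apply, Fin.sum_univ_two, Matrix.transpose_apply] using this
  have e11 : K 1 0 * K 1 0 + K 1 1 * K 1 1 = 1 := by
    have := congrFun (congrFun h1 1) 1
    simpa [Matrix.mul_apply, Fin.sum_univ_two, Matrix.transpose_apply] using this
  have ed : K 0 0 * K 1 1 - K 0 1 * K 1 0 = 1 := by
    rw [Matrix.det_fin_two] at h2; exact h2
  have hz : (K 0 0 - K 1 1) ^ 2 + (K 0 1 + K 1 0) ^ 2 = 0 := by
    linear_combination e00 + e11 - 2 * ed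
  have hz1 : (K 0 0 - K 1 1) ^ 2 = 0 := by
    nlinarith [sq_nonneg (K 0 0 - K 1 1), sq_nonneg (K 0 1 + K 1 0)]
  have hz2 : (K 0 1 + K 1 0) ^ 2 = 0 := by
    nlinarith [sq_nonneg (K 0 0 - K 1 1), sq_nonneg (K 0 1 + K 1 0)]
  have a1 : K 0 0 - K 1 1 = 0 := by simpa using hz1
  have a2 : K 0 1 + K 1 0 = 0 := by simpa using hz2
  refine ⟨by linarith, by linarith, by linear_combination e00⟩

theorem holPart_rot {k : GL (Fin 2) ℝ} (hk : InSO2 k) :
    holPart k = ⟨(k : Matrix (Fin 2) (Fin 2) ℝ) 0 0, -(k : Matrix (Fin 2) (Fin 2) ℝ) 0 1⟩ := by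
  obtain ⟨h1, h2, -⟩ := inSO2_entries hk
  rw [← aM_eq_holPart]
  apply Complex.ext
  · simp only [aM, h1]; ring
  · simp only [aM, h2]; ring

theorem normSq_holPart_rot {k : GL (Fin 2) ℝ} (hk : InSO2 k) :
    Complex.normSq (holPart k) = 1 := by
  obtain ⟨-, -, h3⟩ := inSO2_entries hk
  rw [holPart_rot hk, Complex.normSq_mk]
  linear_combination h3

theorem holPart_rot_ne_zero {k : GL (Fin 2) ℝ} (hk : InSO2 k) : holPart k ≠ 0 := by
  intro h
  have := normSq_holPart_rot hk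
  rw [h] at this
  simp at this

theorem dM_rot_mul {k : GL (Fin 2) ℝ} (hk : InSO2 k) (g : GL (Fin 2) ℝ) :
    dM ((k * g : GL (Fin 2) ℝ) : Matrix (Fin 2) (Fin 2) ℝ) = dM (g : Matrix (Fin 2) (Fin 2) ℝ) := by
  unfold dM
  rw [Units.val_mul, Matrix.det_mul, hk.2, one_mul]

theorem dM_mul_rot {k : GL (Fin 2) ℝ} (hk : InSO2 k) (g : GL (Fin 2) ℝ) :
    dM ((g * k : GL (Fin 2) ℝ) : Matrix (Fin 2) (Fin 2) ℝ) = dM (g : Matrix (Fin 2) (Fin 2) ℝ) := by
  unfold dM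
  rw [Units.val_mul, Matrix.det_mul, hk.2, mul_one]

theorem det_rot_mul {k : GL (Fin 2) ℝ} (hk : InSO2 k) (g : GL (Fin 2) ℝ) :
    ((k * g : GL (Fin 2) ℝ) : Matrix (Fin 2) (Fin 2) ℝ).det
      = (g : Matrix (Fin 2) (Fin 2) ℝ).det := by
  rw [Units.val_mul, Matrix.det_mul, hk.2, one_mul]

theorem det_mul_rot {k : GL (Fin 2) ℝ} (hk : InSO2 k) (g : GL (Fin 2) ℝ) :
    ((g * k : GL (Fin 2) ℝ) : Matrix (Fin 2) (Fin 2) ℝ).det
      = (g : Matrix (Fin 2) (Fin 2) ℝ).det := by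
  rw [Units.val_mul, Matrix.det_mul, hk.2, mul_one]

theorem bM_rot_mul {k : GL (Fin 2) ℝ} (hk : InSO2 k) (g : GL (Fin 2) ℝ) :
    bM ((k * g : GL (Fin 2) ℝ) : Matrix (Fin 2) (Fin 2) ℝ)
      = holPart k * bM (g : Matrix (Fin 2) (Fin 2) ℝ) := by
  obtain ⟨h1, h2, -⟩ := inSO2_entries hk
  rw [holPart_rot hk]
  apply Complex.ext
  · simp only [bM, Units.val_mul, Matrix.mul_apply, Fin.sum_univ_two, Complex.mul_re, h1, h2]
    ring
  · simp only [bM, Units.val_mul, Matrix.mul_apply, Fin.sum_univ_two, Complex.mul_im, h1, h2]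
    ring

theorem aM_rot_mul {k : GL (Fin 2) ℝ} (hk : InSO2 k) (g : GL (Fin 2) ℝ) :
    aM ((k * g : GL (Fin 2) ℝ) : Matrix (Fin 2) (Fin 2) ℝ)
      = holPart k * aM (g : Matrix (Fin 2) (Fin 2) ℝ) := by
  obtain ⟨h1, h2, -⟩ := inSO2_entries hk
  rw [holPart_rot hk]
  apply Complex.ext
  · simp only [aM, Units.val_mul, Matrix.mul_apply, Fin.sum_univ_two, Complex.mul_re, h1, h2]
    ring
  · simp only [aM, Units.val_mul, Matrix.mul_apply, Fin.sum_univ_two, Complex.mul_im, h1, h2]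
    ring

theorem bM_mul_rot {k : GL (Fin 2) ℝ} (hk : InSO2 k) (g : GL (Fin 2) ℝ) :
    bM ((g * k : GL (Fin 2) ℝ) : Matrix (Fin 2) (Fin 2) ℝ)
      = (starRingEnd ℂ) (holPart k) * bM (g : Matrix (Fin 2) (Fin 2) ℝ) := by
  obtain ⟨h1, h2, -⟩ := inSO2_entries hk
  rw [holPart_rot hk]
  apply Complex.ext
  · simp only [bM, Units.val_mul, Matrix.mul_apply, Fin.sum_univ_two, Complex.mul_re, h1, h2,
      Complex.conj_re, Complex.conj_im]
    ring
  · simp only [bM, Units.val_mul, Matrix.mul_apply, Fin.sum_univ_two, Complex.mul_im, h1, h2,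
      Complex.conj_re, Complex.conj_im]
    ring

theorem aM_mul_rot {k : GL (Fin 2) ℝ} (hk : InSO2 k) (g : GL (Fin 2) ℝ) :
    aM ((g * k : GL (Fin 2) ℝ) : Matrix (Fin 2) (Fin 2) ℝ)
      = holPart k * aM (g : Matrix (Fin 2) (Fin 2) ℝ) := by
  obtain ⟨h1, h2, -⟩ := inSO2_entries hk
  rw [holPart_rot hk]
  apply Complex.ext
  · simp only [aM, Units.val_mul, Matrix.mul_apply, Fin.sum_univ_two, Complex.mul_re, h1, h2]
    ring
  · simp only [aM, Units.val_mul, Matrix.mul_apply, Fin.sum_univ_two, Complex.mul_im, h1, h2]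
    ring

/-! ## 2. A phase on `B` is a conjugation by `diag(e, 1)` -/

/-- `diag(e, 1)` for `e ≠ 0`. -/
def phaseG (e : ℂ) (he : e ≠ 0) : GL (Fin 2) ℂ :=
  Matrix.GeneralLinearGroup.mkOfDetNeZero !![e, 0; 0, 1]
    (by rw [Matrix.det_fin_two_of]; simpa using he)

theorem inU2_phaseG (e : ℂ) (he : e ≠ 0) (h1 : Complex.normSq e = 1) : InU2 (phaseG e he) := by
  have hc : e * (starRingEnd ℂ) e = 1 := by
    rw [Complex.mul_conj, h1]; simp
  unfold InU2 phaseG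
  ext i j
  fin_cases i <;> fin_cases j <;>
    simp [Matrix.GeneralLinearGroup.mkOfDetNeZero, Matrix.mul_apply, Fin.sum_univ_two,
      Matrix.conjTranspose_apply, hc]

/-- The matrices of the family for two data with the same `|det|` and `B' = e B`, `|e| = 1`. -/
theorem yM_phase {M M' : Matrix (Fin 2) (Fin 2) ℝ} (e : ℂ) (h1 : Complex.normSq e = 1)
    (hd : dM M' = dM M) (hb : bM M' = e * bM M) (V : ℝ) :
    yM M' V = !![e, 0; 0, 1] * yM M V * !![(starRingEnd ℂ) e, 0; 0, 1] := by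
  have hc : e * (starRingEnd ℂ) e = 1 := by
    rw [Complex.mul_conj, h1]; simp
  have hs : sM M' = sM M := by
    unfold sM
    rw [hd, hb, Complex.normSq_mul, h1, one_mul]
  have hx : xM M' V = xM M V := by unfold xM; rw [hs]
  have hσ : σM M' V = σM M V := by unfold σM; rw [hd, hx]
  unfold yM
  rw [hσ, hx, hd, hb]
  ext i j
  fin_cases i <;> fin_cases j
  · simp only [Matrix.mul_apply, Fin.sum_univ_two, Matrix.of_apply, Matrix.cons_val',
      Matrix.cons_val_zero, Matrix.cons_val_one, Matrix.cons_val_fin_one, Fin.zero_eta]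
    linear_combination (-(((σM M V * (xM M V + 1 + V) : ℝ) : ℂ))) * hc
  · simp [Matrix.mul_apply, Fin.sum_univ_two]
    ring
  · simp [Matrix.mul_apply, Fin.sum_univ_two]
    ring
  · simp [Matrix.mul_apply, Fin.sum_univ_two]

/-- **Phase invariance**: for a bi-`U(2)`-invariant `φ`, the value `φ (y(g, V))` depends on
`|det g|` and on `B` up to a phase only. -/
theorem phi_yG_phase (φ : GL (Fin 2) ℂ → ℂ)
    (hl : ∀ k g : GL (Fin 2) ℂ, InU2 k → φ (k * g) = φ g)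
    (hr : ∀ k g : GL (Fin 2) ℂ, InU2 k → φ (g * k) = φ g)
    {g g' : GL (Fin 2) ℝ} (e : ℂ) (h1 : Complex.normSq e = 1)
    (hd : dM (g' : Matrix (Fin 2) (Fin 2) ℝ) = dM (g : Matrix (Fin 2) (Fin 2) ℝ))
    (hb : bM (g' : Matrix (Fin 2) (Fin 2) ℝ) = e * bM (g : Matrix (Fin 2) (Fin 2) ℝ)) (V : ℝ) :
    φ (yG g' V) = φ (yG g V) := by
  have he : e ≠ 0 := by
    intro h; rw [h] at h1; simp at h1
  have he' : (starRingEnd ℂ) e ≠ 0 := by simpa using he
  have h1' : Complex.normSq ((starRingEnd ℂ) e) = 1 := by rw [Complex.normSq_conj]; exact h1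
  have key : yG g' V = phaseG e he * yG g V * phaseG ((starRingEnd ℂ) e) he' := by
    apply Units.ext
    rw [Units.val_mul, Units.val_mul, coe_yG, coe_yG]
    exact yM_phase e h1 hd hb V
  rw [key, hr _ _ (inU2_phaseG _ he' h1'), hl _ _ (inU2_phaseG _ he h1)]

end Fermat.Agent.LT.T6.H623

end
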