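import Mathlib
import Fermat.Agent.LT.T6.H189.ArchIntCut
import Fermat.Agent.LT.T6.H634.EllCut2
import Fermat.Agent.LT.T6.H623.FamEquiv

/-!
# Row LT, tower T6, station T6.20e.2d (step S5 of helper842): THE PROFILE FORMULA (helper623, spare)

OFF-MAIN.  For a function `f` of weight `n` on both sides (`f (k g) = (wtChar n k)⁻¹ f g`,
`f (g k) = (wtChar n k)⁻¹ f g` for `k ∈ SO(2)`) and `g ∈ GL₂(ℝ)` with `det g > 0`:

  `f g = wtPhase (-n) g * f (sclR (log (det g) / 2) * atR (arcosh (rhoR g)))`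
       `= wtPhase (-n) g * prof0_634 f (det g) (rhoR g)`,

from the Cartan decomposition `H189.CartanRC` (closed by helper189: `cartanRC189`).
No hole; the only hypothesis is `H189.CartanRC`.
-/

set_option autoImplicit false

open scoped Matrix
open MeasureTheory

noncomputable section

namespace Fermat.Agent.LT.T6.H623

open Fermat.Agent.LT.T6 Fermat.Agent.LT.T6.H189 Fermat.Agent.LT.T6.H634

theorem coe_rotR623 (θ : ℝ) :
    ((rotR θ : GL (Fin 2) ℝ) : Matrix (Fin 2) (Fin 2) ℝ)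
      = !![Real.cos θ, -Real.sin θ; Real.sin θ, Real.cos θ] := rfl

theorem coe_dgR623 (u₁ u₂ : ℝ) :
    ((dgR u₁ u₂ : GL (Fin 2) ℝ) : Matrix (Fin 2) (Fin 2) ℝ)
      = !![Real.exp u₁, 0; 0, Real.exp u₂] := rfl

theorem inSO2_rotR623 (θ : ℝ) : InSO2 (rotR θ) := by
  have h := Real.cos_sq_add_sin_sq θ
  constructor
  · rw [coe_rotR623]
    ext i j
    fin_cases i <;> fin_cases j <;>
      simp [Matrix.mul_apply, Fin.sum_univ_two, Matrix.transpose_apply] <;> nlinarith [h]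
  · rw [coe_rotR623, Matrix.det_fin_two_of]
    nlinarith [h]

/-- `e^r a_t = diag(e^{r + t/2}, e^{r - t/2})`. -/
theorem sclR_mul_atR623 (r t : ℝ) : sclR r * atR t = dgR (r + t / 2) (r - t / 2) := by
  apply Units.ext
  rw [Units.val_mul]
  unfold sclR atR
  rw [coe_dgR623, coe_dgR623, coe_dgR623]
  ext i j
  fin_cases i <;> fin_cases j <;>
    simp [Matrix.mul_apply, Fin.sum_univ_two, ← Real.exp_add, sub_eq_add_neg]

/-- Scalars are central. -/
theorem sclR_comm623 (r : ℝ) (x : GL (Fin 2) ℝ) : sclR r * x = x * sclR r := by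
  apply Units.ext
  rw [Units.val_mul, Units.val_mul]
  unfold sclR
  rw [coe_dgR623]
  ext i j
  fin_cases i <;> fin_cases j <;>
    simp [Matrix.mul_apply, Fin.sum_univ_two, mul_comm]

/-- The holomorphic part of `e^r a_t` is real and positive. -/
theorem holPart_dgR623 (u₁ u₂ : ℝ) :
    holPart (dgR u₁ u₂) = (((Real.exp u₁ + Real.exp u₂) / 2 : ℝ) : ℂ) := by
  rw [← aM_eq_holPart]
  apply Complex.ext <;> simp [aM, coe_dgR623, Complex.exp_ofReal_re]

theorem rhoR_eq_rhoP623 (g : GL (Fin 2) ℝ) (hg : 0 < (g : Matrix (Fin 2) (Fin 2) ℝ).det) :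
    rhoR g = rhoP g := by
  unfold rhoR rhoP
  rw [abs_of_pos hg]

/-- **S5, the profile formula.** -/
theorem profile_formula623 (hC : CartanRC) (n : ℤ) (f : GL (Fin 2) ℝ → ℂ)
    (hl : ∀ k g : GL (Fin 2) ℝ, InSO2 k → f (k * g) = (wtChar n k)⁻¹ * f g)
    (hr : ∀ k g : GL (Fin 2) ℝ, InSO2 k → f (g * k) = (wtChar n k)⁻¹ * f g)
    (g : GL (Fin 2) ℝ) (hg : 0 < (g : Matrix (Fin 2) (Fin 2) ℝ).det) :
    f g = wtPhase (-n) g *
      f (sclR (Real.log (g : Matrix (Fin 2) (Fin 2) ℝ).det / 2) * atR (Real.arcosh (rhoR g))) := by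
  obtain ⟨-, θ₁, θ₂, hdec⟩ := hC g hg
  rw [← rhoR_eq_rhoP623 g hg] at hdec
  set r := Real.log (g : Matrix (Fin 2) (Fin 2) ℝ).det / 2 with hr0
  set t := Real.arcosh (rhoR g) with ht0
  set a := sclR r * atR t with ha0
  have hk1 := inSO2_rotR623 θ₁
  have hk2 := inSO2_rotR623 θ₂
  have hg' : g = rotR θ₁ * a * rotR θ₂ := by
    rw [hdec, ha0, sclR_comm623 r (rotR θ₁)]
    simp only [mul_assoc]
  -- the value of `f`
  have hf : f g = (wtChar n (rotR θ₁))⁻¹ * (wtChar n (rotR θ₂))⁻¹ * f a := by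
    conv_lhs => rw [hg']
    rw [hr _ _ hk2, hl _ _ hk1]
    ring
  -- the phase
  have hp : 0 < (Real.exp (r + t / 2) + Real.exp (r - t / 2)) / 2 := by positivity
  have ha : holPart a = (((Real.exp (r + t / 2) + Real.exp (r - t / 2)) / 2 : ℝ) : ℂ) := by
    rw [ha0, sclR_mul_atR623, holPart_dgR623]
  have hh : holPart g = holPart (rotR θ₁) * holPart (rotR θ₂) *
      (((Real.exp (r + t / 2) + Real.exp (r - t / 2)) / 2 : ℝ) : ℂ) := by
    conv_lhs => rw [hg']
    rw [← aM_eq_holPart, aM_mul_rot hk2, aM_rot_mul hk1, aM_eq_holPart, ha]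
    ring
  have hn1 : ‖holPart (rotR θ₁)‖ = 1 := by
    have := normSq_holPart_rot hk1
    rw [Complex.normSq_eq_norm_sq] at this
    nlinarith [norm_nonneg (holPart (rotR θ₁)), norm_nonneg (holPart (rotR θ₂))]
  have hn2 : ‖holPart (rotR θ₂)‖ = 1 := by
    have := normSq_holPart_rot hk2
    rw [Complex.normSq_eq_norm_sq] at this
    nlinarith [norm_nonneg (holPart (rotR θ₁)), norm_nonneg (holPart (rotR θ₂))]
  have hnorm : ‖holPart g‖ = (Real.exp (r + t / 2) + Real.exp (r - t / 2)) / 2 := by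
    rw [hh, norm_mul, norm_mul, hn1, hn2, one_mul, one_mul, Complex.norm_real,
      Real.norm_eq_abs, abs_of_pos hp]
  have hphase : wtPhase (-n) g = (wtChar n (rotR θ₁))⁻¹ * (wtChar n (rotR θ₂))⁻¹ := by
    unfold wtPhase wtChar
    rw [hnorm]
    have hpc : (((Real.exp (r + t / 2) + Real.exp (r - t / 2)) / 2 : ℝ) : ℂ) ≠ 0 := by
      exact_mod_cast hp.ne'
    have : holPart g / (((Real.exp (r + t / 2) + Real.exp (r - t / 2)) / 2 : ℝ) : ℂ)
        = holPart (rotR θ₁) * holPart (rotR θ₂) := by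
      rw [hh, mul_div_assoc, div_self hpc, mul_one]
    rw [this, zpow_neg, mul_zpow, mul_inv]
  rw [hf, hphase]

/-- **S5 in the vocabulary of `H634`**: `f g = wtPhase (-n) g * prof0_634 f (det g) (rhoR g)`. -/
theorem profile_prof0_623 (hC : CartanRC) (n : ℤ) (f : GL (Fin 2) ℝ → ℂ)
    (hl : ∀ k g : GL (Fin 2) ℝ, InSO2 k → f (k * g) = (wtChar n k)⁻¹ * f g)
    (hr : ∀ k g : GL (Fin 2) ℝ, InSO2 k → f (g * k) = (wtChar n k)⁻¹ * f g)
    (g : GL (Fin 2) ℝ) (hg : 0 < (g : Matrix (Fin 2) (Fin 2) ℝ).det) :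
    f g = wtPhase (-n) g * prof0_634 f (g : Matrix (Fin 2) (Fin 2) ℝ).det (rhoR g) := by
  rw [profile_formula623 hC n f hl hr g hg, sclR_mul_atR623]
  rfl

/-- The same for test functions. -/
theorem profile_test623 (hC : CartanRC) (n : ℤ) (f : GL (Fin 2) ℝ → ℂ) (hf : IsArchTestR n f)
    (g : GL (Fin 2) ℝ) (hg : 0 < (g : Matrix (Fin 2) (Fin 2) ℝ).det) :
    f g = wtPhase (-n) g * prof0_634 f (g : Matrix (Fin 2) (Fin 2) ℝ).det (rhoR g) :=
  profile_prof0_623 hC n f hf.left hf.right g hg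

end Fermat.Agent.LT.T6.H623

end
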